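import Fermat.Agent.JKL.LD

/-!
# S25, blocks K, L: localization properties of line data
-/

set_option autoImplicit false

noncomputable section

universe u

open TensorProduct

namespace Fermat.Agent.JKL

open Fermat.Agent.JPC

section General

variable {R₀ R : Type*} [CommRing R₀] [CommRing R] [Algebra R₀ R] (t : R₀)

/-- an exhausting submodule of a module over the localization. -/
theorem isLocalizedModule_subtype [IsLocalization.Away t R] {M : Type*} [AddCommGroup M]
    [Module R₀ M] [Module R M] [IsScalarTower R₀ R M] (N : Submodule R₀ M)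
    (hN : ∀ m : M, ∃ n : ℕ, t ^ n • m ∈ N) :
    IsLocalizedModule (Submonoid.powers t) N.subtype where
  map_units := by
    rintro ⟨x, hx⟩
    have hu : IsUnit (algebraMap R₀ R x) := IsLocalization.map_units R ⟨x, hx⟩
    obtain ⟨v, hv⟩ := hu
    rw [Module.End.isUnit_iff]
    constructor
    · intro a b hab
      simp only [Module.algebraMap_end_apply] at hab
      have : (v : R) • a = (v : R) • b := by
        rw [hv, algebraMap_smul, algebraMap_smul]; exact hab
      have h2 := congrArg (fun z => ((v⁻¹ : Rˣ) : R) • z) this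
      simpa [← mul_smul] using h2
    · intro a
      refine ⟨((v⁻¹ : Rˣ) : R) • a, ?_⟩
      simp only [Module.algebraMap_end_apply]
      rw [← algebraMap_smul R x, ← hv, ← mul_smul, Units.mul_inv, one_smul]
  surj := by
    intro m
    obtain ⟨n, hn⟩ := hN m
    exact ⟨⟨⟨_, hn⟩, ⟨_, n, rfl⟩⟩, rfl⟩
  exists_of_eq := by
    intro x y h
    exact ⟨1, by rw [Subtype.ext h]⟩

/-- localization of a reduction. -/
theorem isRed_liftBaseChange [IsLocalization.Away t R] {J₀ : Ideal R₀} {J : Ideal R}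
    (hJ : J₀.map (algebraMap R₀ R) ≤ J) {P M' : Type*} [AddCommGroup P] [Module R₀ P]
    [AddCommGroup M'] [Module R₀ M'] [Module R M'] [IsScalarTower R₀ R M']
    (π₀ : P →ₗ[R₀] M') (hker : LinearMap.ker π₀ = J₀ • (⊤ : Submodule R₀ P))
    (hex : ∀ m : M', ∃ n : ℕ, t ^ n • m ∈ LinearMap.range π₀)
    (hJM : ∀ j ∈ J, ∀ m : M', j • m = 0) :
    IsRed J (π₀.liftBaseChange R) := by
  have hunit : ∀ n : ℕ, ∃ v : Rˣ, (v : R) = algebraMap R₀ R (t ^ n) := fun n =>
    IsLocalization.map_units R (⟨t ^ n, n, rfl⟩ : Submonoid.powers t)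
  refine ⟨fun m => ?_, ?_⟩
  · obtain ⟨n, p, hp⟩ := hex m
    obtain ⟨v, hv⟩ := hunit n
    refine ⟨((v⁻¹ : Rˣ) : R) ⊗ₜ p, ?_⟩
    rw [LinearMap.liftBaseChange_tmul, hp, ← algebraMap_smul R (t ^ n) m, ← hv, ← mul_smul,
      Units.inv_mul, one_smul]
  · apply le_antisymm
    · intro z hz
      -- write `z = t⁻ⁿ ⊗ p`
      have hloc : IsLocalizedModule (Submonoid.powers t) (TensorProduct.mk R₀ R P 1) :=
        inferInstance
      obtain ⟨⟨p, ⟨_, n, rfl⟩⟩, hp⟩ :=
        IsLocalizedModule.surj (Submonoid.powers t) (TensorProduct.mk R₀ R P 1) z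
      obtain ⟨v, hv⟩ := hunit n
      have hp' : (v : R) • z = 1 ⊗ₜ p := by
        rw [hv, algebraMap_smul]
        exact hp
      have hz' : π₀ p = 0 := by
        have h1 : π₀.liftBaseChange R ((v : R) • z) = π₀ p := by
          rw [hp', LinearMap.liftBaseChange_tmul, one_smul]
        rw [← h1, map_smul, LinearMap.mem_ker.mp hz, smul_zero]
      have hpJ : p ∈ J₀ • (⊤ : Submodule R₀ P) := by
        rw [← hker]; exact hz'
      have h2 : ∀ q ∈ J₀ • (⊤ : Submodule R₀ P), (1 : R) ⊗ₜ[R₀] q ∈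
          J • (⊤ : Submodule R (R ⊗[R₀] P)) := by
        intro q hq
        refine Submodule.smul_induction_on hq ?_ ?_
        · intro r hr n _
          rw [← TensorProduct.smul_tmul, ← Algebra.algebraMap_eq_smul_one]
          have : (algebraMap R₀ R r) ⊗ₜ[R₀] n = (algebraMap R₀ R r) • ((1 : R) ⊗ₜ[R₀] n) := by
            rw [TensorProduct.smul_tmul', smul_eq_mul, mul_one]
          rw [this]
          exact Submodule.smul_mem_smul (hJ (Ideal.mem_map_of_mem _ hr)) trivial
        · intro x y hx hy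
          rw [TensorProduct.tmul_add]
          exact Submodule.add_mem _ hx hy
      have h3 : z = ((v⁻¹ : Rˣ) : R) • ((1 : R) ⊗ₜ[R₀] p) := by
        rw [← hp', ← mul_smul, Units.inv_mul, one_smul]
      rw [h3]
      exact Submodule.smul_mem _ _ (h2 p hpJ)
    · rw [Submodule.smul_le]
      intro j hj z _
      rw [LinearMap.mem_ker, map_smul]
      exact hJM j hj _

end General

variable {k : Type u} [Field k] {X : TwoChart k} {B : Type u} [CommRing B] [Algebra k B]

theorem ex0' (L : PreLD X B) (m : L.M) : ∃ n : ℕ, (t0 X B) ^ n • m ∈ L.M0' := by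
  obtain ⟨n, hn⟩ := L.ex0 m
  refine ⟨n, ?_⟩
  rw [PreLD.mem_M0', t0, Algebra.TensorProduct.tmul_pow, one_pow, PreLD.tmul_smul0, one_smul]
  exact hn

theorem ex1' (L : PreLD X B) (m : L.M) : ∃ n : ℕ, (t1 X B) ^ n • m ∈ L.M1' := by
  obtain ⟨n, hn⟩ := L.ex1 m
  refine ⟨n, ?_⟩
  rw [PreLD.mem_M1', t1, Algebra.TensorProduct.tmul_pow, one_pow, PreLD.tmul_smul1, one_smul]
  exact hn

/-- the module `M` of a line datum is invertible over `B ⊗ A`. -/
theorem isLine_inv (L : PreLD X B) (h : L.IsLine) : Module.Invertible (B ⊗[k] X.A) L.M := by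
  letI := alg0 X B
  haveI := isLocAway0 X B
  haveI := tower0 L
  haveI := h.inv0
  haveI := isLocalizedModule_subtype (R := B ⊗[k] X.A) (t0 X B) L.M0' (ex0' L)
  exact Module.Invertible.of_isLocalization (Submonoid.powers (t0 X B)) L.M0'.subtype

end Fermat.Agent.JKL

end
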