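import Fermat.Agent.JKL.K3

/-!
# S25, block K: lifting the rigidification, `LiftStmt`
-/

set_option autoImplicit false

noncomputable section

universe u

open TensorProduct

namespace Fermat.Agent.JKL

open Fermat.Agent.JPC

variable {k : Type u} [Field k] {X : TwoChart k}

/-- evaluation at `ε`: `B ⊗ A0 → B`. -/
def evB (X : TwoChart k) (B : Type u) [CommRing B] [Algebra k B] : B ⊗[k] X.A0 →ₐ[B] B :=
  Algebra.TensorProduct.lift (AlgHom.id B B) ((Algebra.ofId k B).comp X.ev)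
    (fun _ _ => Commute.all _ _)

@[simp] theorem evB_tmul (B : Type u) [CommRing B] [Algebra k B] (b : B) (a : X.A0) :
    evB X B (b ⊗ₜ a) = b * algebraMap k B (X.ev a) := by
  simp [evB, Algebra.ofId_apply]

variable {B B' : Type u} [CommRing B] [Algebra k B] [CommRing B'] [Algebra k B'] [Algebra B B']
  [IsScalarTower k B B'] {L' : PreLD X B'} (D : LiftData (B := B) L')

theorem evB_φm (s : B ⊗[k] X.A0) :
    evB X B' (φm (k := k) B B' X.A0 s) = algebraMap B B' (evB X B s) := by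
  induction s with
  | zero => simp
  | tmul b a =>
    rw [φm_tmul, evB_tmul, evB_tmul, map_mul, ← IsScalarTower.algebraMap_apply]
  | add x y hx hy => simp only [map_add, hx, hy]

/-- a rigidification is linear over `B ⊗ A0`. -/
theorem rig_smul {L : PreLD X B} (r : L.Rig) (s : B ⊗[k] X.A0) (m : L.M0') :
    r.lam ⟨(s • m : L.M0'), (s • m : L.M0').2⟩ = evB X B s * r.lam ⟨m, m.2⟩ := by
  induction s with
  | zero =>
    have h1 : (⟨((0 : B ⊗[k] X.A0) • m : L.M0'), ((0 : B ⊗[k] X.A0) • m : L.M0').2⟩ : L.M0) = 0 :=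
      Subtype.ext (zero_smul (B ⊗[k] X.A0) (m : L.M))
    rw [h1, map_zero, map_zero, zero_mul]
  | tmul b a =>
    have h1 : (⟨((b ⊗ₜ[k] a : B ⊗[k] X.A0) • m : L.M0'),
        ((b ⊗ₜ[k] a : B ⊗[k] X.A0) • m : L.M0').2⟩ : L.M0) =
        b • (⟨(a : X.A) • (m : L.M), L.smul0 _ a.2 _ m.2⟩ : L.M0) :=
      Subtype.ext rfl
    rw [h1, map_smul]
    have h2 := r.smul a ⟨m, m.2⟩
    rw [evB_tmul, mul_assoc, ← h2, smul_eq_mul]
  | add x y hx hy =>
    have h1 : (⟨((x + y) • m : L.M0'), ((x + y) • m : L.M0').2⟩ : L.M0) =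
        ⟨(x • m : L.M0'), (x • m : L.M0').2⟩ + ⟨(y • m : L.M0'), (y • m : L.M0').2⟩ :=
      Subtype.ext (add_smul x y (m : L.M))
    rw [h1, map_add, hx, hy, map_add, add_mul]

namespace LiftData

theorem exists_rig (hs : Function.Surjective (algebraMap B B'))
    (hn : IsNilpotent (RingHom.ker (algebraMap B B'))) (r' : L'.Rig) :
    ∃ r : D.toLD.Rig, ∀ m : D.toLD.M0,
      algebraMap B B' (r.lam m) = r'.lam ⟨D.red m, D.red_mem0 m m.2⟩ := by
  letI mB : Module (B ⊗[k] X.A0) B := Module.compHom B (evB X B).toRingHom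
  letI mB' : Module (B ⊗[k] X.A0) B' :=
    Module.compHom B' ((algebraMap B B').comp (evB X B).toRingHom)
  let q : B →ₗ[B ⊗[k] X.A0] B' :=
    { toFun := algebraMap B B'
      map_add' := map_add _
      map_smul' := fun s b => map_mul (algebraMap B B') (evB X B s) b }
  have hπ : ∀ p : D.P0, (show L'.M from D.π0 p) ∈ L'.M0 := fun p => by
    have h1 : (D.π0 p : (resLD B L').M) ∈ (resLD B L').M0' := by
      rw [← D.range0]; exact ⟨p, rfl⟩
    exact h1
  let g : D.P0 →ₗ[B ⊗[k] X.A0] B' :=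
    { toFun := fun p => r'.lam ⟨D.π0 p, hπ p⟩
      map_add' := fun p p' => by
        rw [← map_add]
        congr 1
        exact Subtype.ext (map_add D.π0 p p')
      map_smul' := fun s p => by
        have h1 : (D.π0 (s • p) : (resLD B L').M) =
            (φm (k := k) B B' X.A0 s • (show L'.M from D.π0 p) : L'.M) := by
          rw [map_smul]
          exact resLD_smul0 B L' s _
        have h2 := rig_smul r' (φm (k := k) B B' X.A0 s)
          (⟨(show L'.M from D.π0 p), hπ p⟩ : L'.M0')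
        have h3 : (⟨D.π0 (s • p), hπ (s • p)⟩ : L'.M0) =
            ⟨((φm (k := k) B B' X.A0 s) • (⟨(show L'.M from D.π0 p), hπ p⟩ : L'.M0') : L'.M0'),
              ((φm (k := k) B B' X.A0 s) • (⟨(show L'.M from D.π0 p), hπ p⟩ : L'.M0')).2⟩ :=
          Subtype.ext h1
        rw [h3, h2, evB_φm]
        rfl }
  haveI := D.inv0
  obtain ⟨h, hh⟩ := Module.projective_lifting_property q g hs
  have hh' : ∀ p, algebraMap B B' (h p) = r'.lam ⟨D.π0 p, hπ p⟩ := fun p =>
    LinearMap.congr_fun hh p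
  let e := D.equiv0
  have hsmul : ∀ (s : B ⊗[k] X.A0) (m : D.toLD.M0'), h (e.symm (s • m)) =
      evB X B s * h (e.symm m) := fun s m => by
    rw [map_smul, map_smul]
    rfl
  let lam : D.toLD.M0 →ₗ[B] B :=
    { toFun := fun m => h (e.symm ⟨m, m.2⟩)
      map_add' := fun m m' => by
        have h1 : (⟨((m + m' : D.toLD.M0) : D.toLD.M), (m + m').2⟩ : D.toLD.M0') =
            ⟨m, m.2⟩ + ⟨m', m'.2⟩ := rfl
        rw [h1, map_add, map_add]
      map_smul' := fun b m => by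
        have h1 : (⟨((b • m : D.toLD.M0) : D.toLD.M), (b • m).2⟩ : D.toLD.M0') =
            (b ⊗ₜ[k] (1 : X.A0)) • ⟨m, m.2⟩ := by
          apply Subtype.ext
          change (b • (m : D.toLD.M)) = (b ⊗ₜ[k] (1 : X.A0)) • (m : D.toLD.M)
          rw [PreLD.tmul_smul0, OneMemClass.coe_one, one_smul]
        rw [h1, hsmul, evB_tmul, map_one, map_one, mul_one]
        rfl }
  have hlam : ∀ m : D.toLD.M0, algebraMap B B' (lam m) =
      r'.lam ⟨D.red m, D.red_mem0 m m.2⟩ := fun m => by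
    change algebraMap B B' (h (e.symm ⟨m, m.2⟩)) = _
    rw [hh']
    congr 1
    apply Subtype.ext
    have h2 : D.j0 (e.symm ⟨m, m.2⟩) = (m : D.toLD.M) :=
      congrArg Subtype.val (e.apply_symm_apply ⟨m, m.2⟩)
    have h4 := D.ρ_j0 (e.symm ⟨m, m.2⟩)
    rw [h2] at h4
    exact h4.symm
  refine ⟨{ lam := lam, smul := ?_, surj := ?_ }, hlam⟩
  · intro a m
    have h1 : (⟨(a : X.A) • (m : D.toLD.M), D.toLD.smul0 _ a.2 _ m.2⟩ : D.toLD.M0') =
        ((1 : B) ⊗ₜ[k] a) • ⟨m, m.2⟩ := by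
      apply Subtype.ext
      change ((a : X.A) • (m : D.toLD.M)) = ((1 : B) ⊗ₜ[k] a) • (m : D.toLD.M)
      rw [PreLD.tmul_smul0, one_smul]
    change h (e.symm ⟨(a : X.A) • (m : D.toLD.M), D.toLD.smul0 _ a.2 _ m.2⟩) = _
    rw [h1, hsmul, evB_tmul, one_mul]
    rfl
  · obtain ⟨m', hm'⟩ := r'.surj 1
    obtain ⟨x, hx, hxm⟩ := D.exists_mem0 m' m'.2
    have h1 : algebraMap B B' (lam ⟨x, hx⟩) = 1 := by
      rw [hlam, ← hm']
      congr 1
      exact Subtype.ext hxm
    have h2 : lam ⟨x, hx⟩ - 1 ∈ RingHom.ker (algebraMap B B') := by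
      rw [RingHom.mem_ker, map_sub, h1, map_one, sub_self]
    have h3 : IsNilpotent (lam ⟨x, hx⟩ - 1) := by
      obtain ⟨n, hn⟩ := hn
      refine ⟨n, ?_⟩
      have := Ideal.pow_mem_pow h2 n
      rw [hn] at this
      exact this
    have h4 : IsUnit (lam ⟨x, hx⟩) := by
      have := h3.isUnit_one_add
      rwa [add_sub_cancel] at this
    obtain ⟨v, hv⟩ := h4
    intro b
    refine ⟨(b * ((v⁻¹ : Bˣ) : B)) • ⟨x, hx⟩, ?_⟩
    rw [map_smul, ← hv, smul_eq_mul, mul_assoc, Units.inv_mul, mul_one]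

end LiftData

/-- block K: line data with rigidification lift along nilpotent thickenings. -/
theorem exists_lift_line (hs : Function.Surjective (algebraMap B B'))
    (hn : IsNilpotent (RingHom.ker (algebraMap B B'))) (L' : PreLD X B') (h : L'.IsLine)
    (r' : L'.Rig) :
    ∃ (L : PreLD X B) (_ : L.IsLine) (_ : L.Rig), Nonempty ((L.baseChange B').Iso L') := by
  obtain ⟨D⟩ := exists_liftData (B := B) hs hn L' h
  obtain ⟨r, -⟩ := D.exists_rig hs hn r'
  exact ⟨D.toLD, D.toLD_isLine, r, ⟨D.iso hs⟩⟩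

theorem liftStmt (X : TwoChart k) : LiftStmt X := by
  intro B _ _ I hI L₀ hL₀ hr
  obtain ⟨r₀⟩ := hr
  have hker : RingHom.ker (algebraMap B (B ⧸ I)) = I := Ideal.mk_ker
  obtain ⟨L, hL, r, ⟨e⟩⟩ := exists_lift_line (B := B) (B' := B ⧸ I)
    Ideal.Quotient.mk_surjective (by rw [hker]; exact ⟨2, hI⟩) L₀ hL₀ r₀
  exact ⟨L, hL, ⟨r⟩, ⟨e⟩⟩

end Fermat.Agent.JKL

end
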