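import Fermat.Agent.JKL.Lift

/-!
# S25, block K: invertible modules lift along nilpotent thickenings
-/

set_option autoImplicit false

noncomputable section

namespace Fermat.Agent.JKL

open TensorProduct

variable {A A₀ : Type*} [CommRing A] [CommRing A₀] [Algebra A A₀]

theorem IsRed.trans_equiv {I : Ideal A} {P P₀ Q₀ : Type*} [AddCommGroup P] [Module A P]
    [AddCommGroup P₀] [Module A P₀] [AddCommGroup Q₀] [Module A Q₀] {π : P →ₗ[A] P₀}
    (h : IsRed I π) (e : P₀ ≃ₗ[A] Q₀) : IsRed I (e.toLinearMap ∘ₗ π) where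
  surj := e.surjective.comp h.surj
  ker := by rw [LinearEquiv.ker_comp, h.ker]

theorem IsRed.equiv_trans {I : Ideal A} {P Q P₀ : Type*} [AddCommGroup P] [Module A P]
    [AddCommGroup P₀] [Module A P₀] [AddCommGroup Q] [Module A Q] {π : P →ₗ[A] P₀}
    (h : IsRed I π) (e : Q ≃ₗ[A] P) : IsRed I (π ∘ₗ e.toLinearMap) where
  surj := h.surj.comp e.surjective
  ker := by
    rw [LinearMap.ker_comp, h.ker]
    have : (I • (⊤ : Submodule A P)) = (I • (⊤ : Submodule A Q)).map e.toLinearMap := by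
      rw [Submodule.map_smul'', Submodule.map_top, LinearEquiv.range]
    rw [this]
    exact Submodule.comap_map_eq_of_injective e.injective _

theorem isRed_linearMap (hs : Function.Surjective (algebraMap A A₀)) :
    IsRed (RingHom.ker (algebraMap A A₀)) (Algebra.linearMap A A₀) where
  surj := hs
  ker := by
    ext x
    simp [RingHom.mem_ker]

/-- invertible modules lift along nilpotent thickenings. -/
theorem exists_lift_invertible (hs : Function.Surjective (algebraMap A A₀))
    (hn : IsNilpotent (RingHom.ker (algebraMap A A₀)))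
    (M₀ : Type*) [AddCommGroup M₀] [Module A M₀] [Module A₀ M₀] [IsScalarTower A A₀ M₀]
    [Module.Invertible A₀ M₀] :
    ∃ (n : ℕ) (M : Submodule A (Fin n → A)) (π : M →ₗ[A] M₀),
      Module.Invertible A M ∧ IsRed (RingHom.ker (algebraMap A A₀)) π := by
  obtain ⟨n, M, π, hfin, hproj, hπ⟩ := exists_lift_projective hs hn M₀
  obtain ⟨n', M', π', hfin', hproj', hπ'⟩ :=
    exists_lift_projective hs hn (Module.Dual A₀ M₀)
  refine ⟨n, M, π, ?_, hπ⟩
  let e1 : A₀ ⊗[A] M ≃ₗ[A₀] M₀ := (hπ.isBaseChange hs).equiv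
  let e2 : A₀ ⊗[A] M' ≃ₗ[A₀] Module.Dual A₀ M₀ := (hπ'.isBaseChange hs).equiv
  let E : A₀ ⊗[A] (M' ⊗[A] M) ≃ₗ[A₀] A₀ :=
    (AlgebraTensorModule.distribBaseChange A A₀ M' M) ≪≫ₗ
      TensorProduct.congr e2 e1 ≪≫ₗ Module.Invertible.linearEquiv A₀ M₀
  have h1 := (isRed_mk hs (M' ⊗[A] M)).trans_equiv (E.restrictScalars A)
  haveI : Module.Projective A (M' ⊗[A] M) := inferInstance
  obtain ⟨e, -⟩ := h1.exists_equiv hn (isRed_linearMap hs) (LinearEquiv.refl A A₀)
  exact Module.Invertible.right e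

end Fermat.Agent.JKL

end
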