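import Fermat.Agent.JKL.Res
import Fermat.Agent.JPC.Chart

/-!
# S25, block K: lifting of line data along nilpotent thickenings
-/

set_option autoImplicit false

noncomputable section

universe u

open TensorProduct

namespace Fermat.Agent.JKL

open Fermat.Agent.JPC

variable {k : Type u} [Field k] {X : TwoChart k}
variable {B B' : Type u} [CommRing B] [Algebra k B] [CommRing B'] [Algebra k B'] [Algebra B B']
  [IsScalarTower k B B']

/-- the data of lifts of `M0'` and `M1'` together with the glueing. -/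
structure LiftData (L' : PreLD X B') where
  P0 : Type u
  [acg0 : AddCommGroup P0]
  [mod0 : Module (B ⊗[k] X.A0) P0]
  π0 : P0 →ₗ[B ⊗[k] X.A0] (resLD B L').M
  inv0 : Module.Invertible (B ⊗[k] X.A0) P0
  range0 : LinearMap.range π0 = (resLD B L').M0'
  ker0 : LinearMap.ker π0 = RingHom.ker (φm (k := k) B B' X.A0) •
    (⊤ : Submodule (B ⊗[k] X.A0) P0)
  P1 : Type u
  [acg1 : AddCommGroup P1]
  [mod1 : Module (B ⊗[k] X.A1) P1]
  π1 : P1 →ₗ[B ⊗[k] X.A1] (resLD B L').M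
  inv1 : Module.Invertible (B ⊗[k] X.A1) P1
  range1 : LinearMap.range π1 = (resLD B L').M1'
  ker1 : LinearMap.ker π1 = RingHom.ker (φm (k := k) B B' X.A1) •
    (⊤ : Submodule (B ⊗[k] X.A1) P1)
  /-- the common localization -/
  M : Type u
  [acgM : AddCommGroup M]
  [modM : Module (B ⊗[k] X.A) M]
  j0 : P0 →+ M
  j1 : P1 →+ M
  ρ : M →+ L'.M
  j0_smul : ∀ (s : B ⊗[k] X.A0) (p : P0), j0 (s • p) = ι0 X B s • j0 p
  j1_smul : ∀ (s : B ⊗[k] X.A1) (p : P1), j1 (s • p) = ι1 X B s • j1 p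
  ρ_smul : ∀ (s : B ⊗[k] X.A) (m : M), ρ (s • m) = φm (k := k) B B' X.A s • ρ m
  ρ_j0 : ∀ p, ρ (j0 p) = π0 p
  ρ_j1 : ∀ p, ρ (j1 p) = π1 p
  j0_inj : Function.Injective j0
  j1_inj : Function.Injective j1
  ex0 : ∀ m : M, ∃ n : ℕ, ι0 X B (t0 X B) ^ n • m ∈ j0.range
  ex1 : ∀ m : M, ∃ n : ℕ, ι1 X B (t1 X B) ^ n • m ∈ j1.range
  ρ_surj : Function.Surjective ρ
  ρ_ker : ∀ m, ρ m = 0 → m ∈ RingHom.ker (φm (k := k) B B' X.A) •
    (⊤ : Submodule (B ⊗[k] X.A) M)

attribute [instance] LiftData.acg0 LiftData.mod0 LiftData.acg1 LiftData.mod1 LiftData.acgM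
  LiftData.modM

theorem exists_liftData (hs : Function.Surjective (algebraMap B B'))
    (hn : IsNilpotent (RingHom.ker (algebraMap B B'))) (L' : PreLD X B') (h : L'.IsLine) :
    Nonempty (LiftData (B := B) L') := by
  obtain ⟨P0, _, _, π0, inv0, range0, ker0⟩ := exists_P0 (B := B) hs hn L' h
  obtain ⟨P1, _, _, π1, inv1, range1, ker1⟩ := exists_P1 (B := B) hs hn L' h
  -- localizations
  letI a0 := alg0 X B
  haveI l0 := isLocAway0 X B
  haveI w0 := tower0 (resLD B L')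
  letI a1 := alg1 X B
  haveI l1 := isLocAway1 X B
  haveI w1 := tower1 (resLD B L')
  have hJM : ∀ j ∈ RingHom.ker (φm (k := k) B B' X.A), ∀ m : (resLD B L').M, j • m = 0 := by
    intro j hj m
    rw [resLD_smul B L' j m, (RingHom.mem_ker.mp hj)]
    exact zero_smul (B' ⊗[k] X.A) (show L'.M from m)
  have hJ0 : (RingHom.ker (φm (k := k) B B' X.A0)).map
      (algebraMap (B ⊗[k] X.A0) (B ⊗[k] X.A)) ≤ RingHom.ker (φm (k := k) B B' X.A) := by
    rw [Ideal.map_le_iff_le_comap]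
    intro s hs
    rw [Ideal.mem_comap, RingHom.mem_ker]
    have h1 : ∀ s : B ⊗[k] X.A0, φm (k := k) B B' X.A (ι0 X B s) =
        ι0 X B' (φm (k := k) B B' X.A0 s) := by
      intro s
      induction s with
      | zero => simp
      | tmul b a => rfl
      | add x y hx hy => simp only [map_add, hx, hy]
    exact (h1 s).trans (by rw [RingHom.mem_ker.mp hs, map_zero])
  have hJ1 : (RingHom.ker (φm (k := k) B B' X.A1)).map
      (algebraMap (B ⊗[k] X.A1) (B ⊗[k] X.A)) ≤ RingHom.ker (φm (k := k) B B' X.A) := by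
    rw [Ideal.map_le_iff_le_comap]
    intro s hs
    rw [Ideal.mem_comap, RingHom.mem_ker]
    have h1 : ∀ s : B ⊗[k] X.A1, φm (k := k) B B' X.A (ι1 X B s) =
        ι1 X B' (φm (k := k) B B' X.A1 s) := by
      intro s
      induction s with
      | zero => simp
      | tmul b a => rfl
      | add x y hx hy => simp only [map_add, hx, hy]
    exact (h1 s).trans (by rw [RingHom.mem_ker.mp hs, map_zero])
  have r0 := isRed_liftBaseChange (R := B ⊗[k] X.A) (t0 X B) hJ0 π0 ker0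
    (fun m => by rw [range0]; exact ex0' (resLD B L') m) hJM
  have r1 := isRed_liftBaseChange (R := B ⊗[k] X.A) (t1 X B) hJ1 π1 ker1
    (fun m => by rw [range1]; exact ex1' (resLD B L') m) hJM
  obtain ⟨e, he⟩ := r0.exists_equiv (isNilpotent_ker_φm B B' hs hn X.A) r1
    (LinearEquiv.refl _ _)
  have surj0 : ∀ m : (B ⊗[k] X.A) ⊗[B ⊗[k] X.A0] P0, ∃ n : ℕ, ∃ p : P0,
      ι0 X B (t0 X B) ^ n • m = 1 ⊗ₜ p := by
    intro m
    obtain ⟨⟨p, ⟨_, n, rfl⟩⟩, hp⟩ := IsLocalizedModule.surj (Submonoid.powers (t0 X B))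
      (TensorProduct.mk (B ⊗[k] X.A0) (B ⊗[k] X.A) P0 1) m
    refine ⟨n, p, ?_⟩
    rw [← map_pow]
    exact (algebraMap_smul (B ⊗[k] X.A) (t0 X B ^ n) m).trans hp
  have surj1 : ∀ m : (B ⊗[k] X.A) ⊗[B ⊗[k] X.A1] P1, ∃ n : ℕ, ∃ p : P1,
      ι1 X B (t1 X B) ^ n • m = 1 ⊗ₜ p := by
    intro m
    obtain ⟨⟨p, ⟨_, n, rfl⟩⟩, hp⟩ := IsLocalizedModule.surj (Submonoid.powers (t1 X B))
      (TensorProduct.mk (B ⊗[k] X.A1) (B ⊗[k] X.A) P1 1) m
    refine ⟨n, p, ?_⟩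
    rw [← map_pow]
    exact (algebraMap_smul (B ⊗[k] X.A) (t1 X B ^ n) m).trans hp
  have hflat0 : Function.Injective
      (TensorProduct.mk (B ⊗[k] X.A0) (B ⊗[k] X.A) P0 1) := by
    have h1 : TensorProduct.mk (B ⊗[k] X.A0) (B ⊗[k] X.A) P0 1 =
        ((Algebra.linearMap (B ⊗[k] X.A0) (B ⊗[k] X.A)).rTensor P0) ∘ₗ
          (TensorProduct.lid (B ⊗[k] X.A0) P0).symm.toLinearMap := by
      ext p; simp
    rw [h1, LinearMap.coe_comp]
    exact (Module.Flat.rTensor_preserves_injective_linearMap (M := P0)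
      (Algebra.linearMap (B ⊗[k] X.A0) (B ⊗[k] X.A))
      (ι0_injective X B)).comp (LinearEquiv.injective _)
  have hflat1 : Function.Injective
      (TensorProduct.mk (B ⊗[k] X.A1) (B ⊗[k] X.A) P1 1) := by
    have h1 : TensorProduct.mk (B ⊗[k] X.A1) (B ⊗[k] X.A) P1 1 =
        ((Algebra.linearMap (B ⊗[k] X.A1) (B ⊗[k] X.A)).rTensor P1) ∘ₗ
          (TensorProduct.lid (B ⊗[k] X.A1) P1).symm.toLinearMap := by
      ext p; simp
    rw [h1, LinearMap.coe_comp]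
    exact (Module.Flat.rTensor_preserves_injective_linearMap (M := P1)
      (Algebra.linearMap (B ⊗[k] X.A1) (B ⊗[k] X.A))
      (ι1_injective X B)).comp (LinearEquiv.injective _)
  have tsmul0 : ∀ (s : B ⊗[k] X.A0) (p : P0),
      ((1 : B ⊗[k] X.A) ⊗ₜ[B ⊗[k] X.A0] (s • p)) = ι0 X B s • ((1 : B ⊗[k] X.A) ⊗ₜ p) := by
    intro s p
    refine (TensorProduct.smul_tmul s (1 : B ⊗[k] X.A) p).symm.trans ?_
    have h1 : s • (1 : B ⊗[k] X.A) = ι0 X B s • (1 : B ⊗[k] X.A) := by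
      rw [Algebra.smul_def, smul_eq_mul]
      rfl
    rw [h1]
    exact (TensorProduct.smul_tmul' (ι0 X B s) (1 : B ⊗[k] X.A) p).symm
  have tsmul1 : ∀ (s : B ⊗[k] X.A1) (p : P1),
      ((1 : B ⊗[k] X.A) ⊗ₜ[B ⊗[k] X.A1] (s • p)) = ι1 X B s • ((1 : B ⊗[k] X.A) ⊗ₜ p) := by
    intro s p
    refine (TensorProduct.smul_tmul s (1 : B ⊗[k] X.A) p).symm.trans ?_
    have h1 : s • (1 : B ⊗[k] X.A) = ι1 X B s • (1 : B ⊗[k] X.A) := by
      rw [Algebra.smul_def, smul_eq_mul]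
      rfl
    rw [h1]
    exact (TensorProduct.smul_tmul' (ι1 X B s) (1 : B ⊗[k] X.A) p).symm
  exact ⟨{
    P0 := P0
    π0 := π0
    inv0 := inv0
    range0 := range0
    ker0 := ker0
    P1 := P1
    π1 := π1
    inv1 := inv1
    range1 := range1
    ker1 := ker1
    M := (B ⊗[k] X.A) ⊗[B ⊗[k] X.A0] P0
    j0 := (TensorProduct.mk (B ⊗[k] X.A0) (B ⊗[k] X.A) P0 1).toAddMonoidHom
    j1 := (e.symm.toLinearMap.toAddMonoidHom).comp
      (TensorProduct.mk (B ⊗[k] X.A1) (B ⊗[k] X.A) P1 1).toAddMonoidHom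
    ρ := (π0.liftBaseChange (B ⊗[k] X.A)).toAddMonoidHom
    j0_smul := fun s p => tsmul0 s p
    j1_smul := fun s p => by
      change e.symm (1 ⊗ₜ (s • p)) = ι1 X B s • e.symm (1 ⊗ₜ p)
      rw [tsmul1, map_smul]
    ρ_smul := fun s m => by
      change π0.liftBaseChange (B ⊗[k] X.A) (s • m) = _
      rw [map_smul]
      exact resLD_smul B L' s _
    ρ_j0 := fun p => by
      change π0.liftBaseChange (B ⊗[k] X.A) (1 ⊗ₜ p) = _
      rw [LinearMap.liftBaseChange_tmul, one_smul]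
    ρ_j1 := fun p => by
      change π0.liftBaseChange (B ⊗[k] X.A) (e.symm (1 ⊗ₜ p)) = _
      have h1 := he (e.symm (1 ⊗ₜ p))
      rw [LinearEquiv.apply_symm_apply, LinearMap.liftBaseChange_tmul, one_smul] at h1
      exact h1.symm
    j0_inj := hflat0
    j1_inj := e.symm.injective.comp hflat1
    ex0 := fun m => by
      obtain ⟨n, p, hp⟩ := surj0 m
      exact ⟨n, p, hp.symm⟩
    ex1 := fun m => by
      obtain ⟨n, p, hp⟩ := surj1 (e m)
      refine ⟨n, p, ?_⟩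
      change e.symm (1 ⊗ₜ p) = _
      rw [← hp, map_smul, LinearEquiv.symm_apply_apply]
    ρ_surj := r0.surj
    ρ_ker := fun m hm => by
      rw [← r0.ker]
      exact hm }⟩

end Fermat.Agent.JKL

end
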