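import Fermat.Agent.JKL.K

/-!
# S25, block K: the lifted line datum
-/

set_option autoImplicit false

noncomputable section

universe u

open TensorProduct

namespace Fermat.Agent.JKL

open Fermat.Agent.JPC

variable {k : Type u} [Field k] {X : TwoChart k}
variable {B B' : Type u} [CommRing B] [Algebra k B] [CommRing B'] [Algebra k B'] [Algebra B B']
  [IsScalarTower k B B'] {L' : PreLD X B'} (D : LiftData (B := B) L')

namespace LiftData

/-- the lifted line datum -/
def toLD : PreLD X B :=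
  mkLD X D.M D.j0.range D.j1.range
    (by
      rintro s _ ⟨p, rfl⟩
      exact ⟨s • p, D.j0_smul s p⟩)
    (by
      rintro s _ ⟨p, rfl⟩
      exact ⟨s • p, D.j1_smul s p⟩)
    D.ex0 D.ex1

theorem toLD_smul (s : B ⊗[k] X.A) (m : D.M) :
    (s • (show D.toLD.M from m) : D.toLD.M) = (s • m : D.M) :=
  mkLD_smul X D.M _ _ _ _ _ _ s m

theorem mem_M0 (m : D.M) : (show D.toLD.M from m) ∈ D.toLD.M0 ↔ ∃ p, D.j0 p = m := Iff.rfl
theorem mem_M1 (m : D.M) : (show D.toLD.M from m) ∈ D.toLD.M1 ↔ ∃ p, D.j1 p = m := Iff.rfl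

theorem toLD_smul0 (s : B ⊗[k] X.A0) (m : D.M) :
    (s • (show D.toLD.M from m) : D.toLD.M) = (ι0 X B s • m : D.M) := by
  rw [← toLD_smul]
  exact (ι0_smul D.toLD s (show D.toLD.M from m)).symm

theorem toLD_smul1 (s : B ⊗[k] X.A1) (m : D.M) :
    (s • (show D.toLD.M from m) : D.toLD.M) = (ι1 X B s • m : D.M) := by
  rw [← toLD_smul]
  exact (ι1_smul D.toLD s (show D.toLD.M from m)).symm

/-- `P0 → M0` -/
def lin0 : D.P0 →ₗ[B ⊗[k] X.A0] D.toLD.M0' where
  toFun := fun p => ⟨(show D.toLD.M from D.j0 p), ⟨p, rfl⟩⟩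
  map_add' := fun p q => Subtype.ext (map_add D.j0 p q)
  map_smul' := fun s p => by
    apply Subtype.ext
    exact (D.j0_smul s p).trans (D.toLD_smul0 s _).symm

/-- `P0 ≃ M0` -/
def equiv0 : D.P0 ≃ₗ[B ⊗[k] X.A0] D.toLD.M0' :=
  LinearEquiv.ofBijective D.lin0
    ⟨fun p q h => D.j0_inj (congrArg Subtype.val h), fun ⟨m, p, hp⟩ => ⟨p, Subtype.ext hp⟩⟩

/-- `P1 → M1` -/
def lin1 : D.P1 →ₗ[B ⊗[k] X.A1] D.toLD.M1' where
  toFun := fun p => ⟨(show D.toLD.M from D.j1 p), ⟨p, rfl⟩⟩
  map_add' := fun p q => Subtype.ext (map_add D.j1 p q)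
  map_smul' := fun s p => by
    apply Subtype.ext
    exact (D.j1_smul s p).trans (D.toLD_smul1 s _).symm

/-- `P1 ≃ M1` -/
def equiv1 : D.P1 ≃ₗ[B ⊗[k] X.A1] D.toLD.M1' :=
  LinearEquiv.ofBijective D.lin1
    ⟨fun p q h => D.j1_inj (congrArg Subtype.val h), fun ⟨m, p, hp⟩ => ⟨p, Subtype.ext hp⟩⟩

theorem toLD_isLine : D.toLD.IsLine where
  inv0 := by
    haveI := D.inv0
    exact Module.Invertible.congr D.equiv0
  inv1 := by
    haveI := D.inv1
    exact Module.Invertible.congr D.equiv1

/-- the reduction as a `B`-linear map. -/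
def red : D.toLD.M →ₗ[B] (resLD B L').M where
  toFun := fun m => D.ρ m
  map_add' := D.ρ.map_add
  map_smul' := fun b m => by
    have h1 : (b • m : D.toLD.M) = ((b ⊗ₜ[k] (1 : X.A)) • (show D.M from m) : D.M) := by
      rw [← D.toLD_smul]
      exact (by rw [PreLD.tmul_smul, one_smul] :
        (b • m : D.toLD.M) = (b ⊗ₜ[k] (1 : X.A)) • m)
    change D.ρ (b • m : D.toLD.M) = _
    rw [h1, D.ρ_smul, φm_tmul]
    exact (by rw [PreLD.tmul_smul, one_smul] :
      ((algebraMap B B' b ⊗ₜ[k] (1 : X.A)) • D.ρ m : L'.M) = algebraMap B B' b • D.ρ m)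

@[simp] theorem red_apply (m : D.M) : D.red m = D.ρ m := rfl

theorem red_smulA (a : X.A) (m : D.toLD.M) : D.red (a • m) = (a • (D.red m : L'.M) : L'.M) := by
  have h1 : (a • m : D.toLD.M) = (((1 : B) ⊗ₜ[k] a) • (show D.M from m) : D.M) := by
    rw [← D.toLD_smul]
    exact (by rw [PreLD.tmul_smul, one_smul] :
      (a • m : D.toLD.M) = ((1 : B) ⊗ₜ[k] a) • m)
  change D.ρ (a • m : D.toLD.M) = _
  rw [h1, D.ρ_smul, φm_tmul, map_one]
  exact (by rw [PreLD.tmul_smul, one_smul] :
    (((1 : B') ⊗ₜ[k] a) • D.ρ m : L'.M) = a • D.ρ m)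

theorem isRed_red (hs : Function.Surjective (algebraMap B B')) :
    IsRed (RingHom.ker (algebraMap B B')) D.red where
  surj := D.ρ_surj
  ker := by
    apply le_antisymm
    · intro m hm
      have h1 := D.ρ_ker m hm
      rw [ker_φm B B' hs] at h1
      refine Submodule.smul_induction_on h1 ?_ ?_
      · intro j hj m _
        have h2 : ∀ j ∈ (RingHom.ker (algebraMap B B')).map (algebraMap B (B ⊗[k] X.A)),
            ∀ m : D.toLD.M, (j • m : D.toLD.M) ∈
              (RingHom.ker (algebraMap B B')) • (⊤ : Submodule B D.toLD.M) := by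
          intro j hj
          refine Submodule.span_induction ?_ ?_ ?_ ?_ hj
          · rintro _ ⟨b, hb, rfl⟩ m
            have : (algebraMap B (B ⊗[k] X.A) b) • m = b • m := algebraMap_smul _ b m
            rw [this]
            exact Submodule.smul_mem_smul hb trivial
          · intro m
            rw [zero_smul (B ⊗[k] X.A) m]
            exact Submodule.zero_mem _
          · intro x y _ _ hx hy m
            rw [add_smul]
            exact Submodule.add_mem _ (hx m) (hy m)
          · intro s x _ hx m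
            rw [smul_eq_mul, mul_comm, mul_smul]
            exact hx _
        have h3 := h2 j hj m
        rw [D.toLD_smul] at h3
        exact h3
      · intro x y hx hy
        exact Submodule.add_mem _ hx hy
    · rw [Submodule.smul_le]
      intro b hb m _
      rw [LinearMap.mem_ker, map_smul]
      have : (b • D.red m : (resLD B L').M) =
        (algebraMap B B' b • (show L'.M from D.red m) : L'.M) := rfl
      rw [this, RingHom.mem_ker.mp hb]
      exact zero_smul B' (show L'.M from D.red m)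

end LiftData

end Fermat.Agent.JKL

end
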