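import Fermat.Agent.JKL.K2

/-!
# S25, block K: base change of the lifted datum, rigidification, `LiftStmt`
-/

set_option autoImplicit false

noncomputable section

universe u

open TensorProduct

namespace Fermat.Agent.JKL

open Fermat.Agent.JPC

variable {k : Type u} [Field k] {X : TwoChart k}
variable {B B' : Type u} [CommRing B] [Algebra k B] [CommRing B'] [Algebra k B'] [Algebra B B']
  [IsScalarTower k B B'] {L' : PreLD X B'} (D : LiftData (B := B) L')

namespace LiftData

/-- the underlying linear equivalence -/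
def bcEquiv (hs : Function.Surjective (algebraMap B B')) : (B' ⊗[B] D.toLD.M) ≃ₗ[B'] L'.M :=
  letI : Module B' (resLD B L').M := L'.modB
  haveI : IsScalarTower B B' (resLD B L').M :=
    ⟨fun b b' m => by
      have : b • b' = algebraMap B B' b * b' := Algebra.smul_def _ _
      rw [this]
      exact mul_smul (algebraMap B B' b) b' (show L'.M from m)⟩
  ((D.isRed_red hs).isBaseChange hs).equiv

theorem bcEquiv_tmul (hs : Function.Surjective (algebraMap B B')) (b : B') (m : D.toLD.M) :
    D.bcEquiv hs (b ⊗ₜ m) = b • (show L'.M from D.red m) := by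
  letI : Module B' (resLD B L').M := L'.modB
  haveI : IsScalarTower B B' (resLD B L').M :=
    ⟨fun b b' m => by
      have : b • b' = algebraMap B B' b * b' := Algebra.smul_def _ _
      rw [this]
      exact mul_smul (algebraMap B B' b) b' (show L'.M from m)⟩
  exact ((D.isRed_red hs).isBaseChange hs).equiv_tmul b m

theorem red_mem0 (m : D.toLD.M) (hm : m ∈ D.toLD.M0) : (show L'.M from D.red m) ∈ L'.M0 := by
  obtain ⟨p, rfl⟩ := hm
  have h1 : (D.π0 p : (resLD B L').M) ∈ (resLD B L').M0' := by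
    rw [← D.range0]; exact ⟨p, rfl⟩
  have h2 : D.ρ (D.j0 p) = D.π0 p := D.ρ_j0 p
  change D.ρ (D.j0 p) ∈ L'.M0
  rw [h2]
  exact h1

theorem red_mem1 (m : D.toLD.M) (hm : m ∈ D.toLD.M1) : (show L'.M from D.red m) ∈ L'.M1 := by
  obtain ⟨p, rfl⟩ := hm
  have h1 : (D.π1 p : (resLD B L').M) ∈ (resLD B L').M1' := by
    rw [← D.range1]; exact ⟨p, rfl⟩
  have h2 : D.ρ (D.j1 p) = D.π1 p := D.ρ_j1 p
  change D.ρ (D.j1 p) ∈ L'.M1
  rw [h2]
  exact h1

theorem exists_mem0 (m : L'.M) (hm : m ∈ L'.M0) : ∃ x ∈ D.toLD.M0, (show L'.M from D.red x) = m := by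
  have h1 : (show (resLD B L').M from m) ∈ (resLD B L').M0' := hm
  rw [← D.range0] at h1
  obtain ⟨p, hp⟩ := h1
  exact ⟨D.j0 p, ⟨p, rfl⟩, (D.ρ_j0 p).trans hp⟩

theorem exists_mem1 (m : L'.M) (hm : m ∈ L'.M1) : ∃ x ∈ D.toLD.M1, (show L'.M from D.red x) = m := by
  have h1 : (show (resLD B L').M from m) ∈ (resLD B L').M1' := hm
  rw [← D.range1] at h1
  obtain ⟨p, hp⟩ := h1
  exact ⟨D.j1 p, ⟨p, rfl⟩, (D.ρ_j1 p).trans hp⟩

/-- the base change of the lifted datum. -/
def iso (hs : Function.Surjective (algebraMap B B')) :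
    (D.toLD.baseChange B').Iso L' where
  e := D.bcEquiv hs
  smul := fun a m => by
    induction m using TensorProduct.induction_on with
    | zero =>
      have h1 : (a • (0 : (D.toLD.baseChange B').M)) = 0 := smul_zero a
      have h2 : D.bcEquiv hs (0 : B' ⊗[B] D.toLD.M) = 0 := map_zero _
      exact ((congrArg (D.bcEquiv hs) h1).trans h2).trans
        ((congrArg (fun z => a • z) h2).trans (smul_zero a)).symm
    | tmul b m =>
      have h1 := PreLD.baseChange_smul D.toLD B' a b m
      refine (congrArg (D.bcEquiv hs) h1).trans ?_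
      refine (D.bcEquiv_tmul hs b (a • m)).trans ?_
      refine Eq.trans ?_ (congrArg (fun z => a • z) (D.bcEquiv_tmul hs b m)).symm
      have h2 : (show L'.M from D.red (a • m)) = a • (show L'.M from D.red m) :=
        D.red_smulA a m
      rw [h2, smul_comm]
    | add x y hx hy =>
      have h1 : (a • (show (D.toLD.baseChange B').M from (x + y : B' ⊗[B] D.toLD.M))) =
        a • (show (D.toLD.baseChange B').M from x) +
        a • (show (D.toLD.baseChange B').M from y) := smul_add a _ _
      exact (congrArg (D.bcEquiv hs) h1).trans ((map_add (D.bcEquiv hs) _ _).trans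
        ((congrArg₂ (· + ·) hx hy).trans ((smul_add a _ _).symm.trans
        (congrArg (fun z => a • z) (map_add (D.bcEquiv hs) x y).symm))))
  map0 := by
    rw [PreLD.baseChange_M0, Submodule.baseChange_eq_span]
    erw [Submodule.map_span]
    apply le_antisymm
    · rw [Submodule.span_le]
      rintro _ ⟨_, ⟨m, hm, rfl⟩, rfl⟩
      change D.bcEquiv hs (1 ⊗ₜ m) ∈ L'.M0
      rw [bcEquiv_tmul, one_smul]
      exact D.red_mem0 m hm
    · intro m hm
      obtain ⟨x, hx, rfl⟩ := D.exists_mem0 m hm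
      refine Submodule.subset_span ⟨1 ⊗ₜ x, ⟨x, hx, rfl⟩, ?_⟩
      exact (D.bcEquiv_tmul hs 1 x).trans (one_smul _ _)
  map1 := by
    rw [PreLD.baseChange_M1, Submodule.baseChange_eq_span]
    erw [Submodule.map_span]
    apply le_antisymm
    · rw [Submodule.span_le]
      rintro _ ⟨_, ⟨m, hm, rfl⟩, rfl⟩
      change D.bcEquiv hs (1 ⊗ₜ m) ∈ L'.M1
      rw [bcEquiv_tmul, one_smul]
      exact D.red_mem1 m hm
    · intro m hm
      obtain ⟨x, hx, rfl⟩ := D.exists_mem1 m hm
      refine Submodule.subset_span ⟨1 ⊗ₜ x, ⟨x, hx, rfl⟩, ?_⟩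
      exact (D.bcEquiv_tmul hs 1 x).trans (one_smul _ _)

end LiftData

end Fermat.Agent.JKL

end
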