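import Mathlib

/-!
# S25, block K: lifting projective and invertible modules along nilpotent thickenings
-/

set_option autoImplicit false

namespace Fermat.Agent.JKL

open TensorProduct

section Red

variable {A : Type*} [CommRing A] (I : Ideal A)

/-- `π : P → P₀` is the reduction modulo `I`. -/
structure IsRed {P P₀ : Type*} [AddCommGroup P] [Module A P] [AddCommGroup P₀] [Module A P₀]
    (π : P →ₗ[A] P₀) : Prop where
  surj : Function.Surjective π
  ker : LinearMap.ker π = I • (⊤ : Submodule A P)

variable {I}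
variable {P P' P₀ P₀' : Type*} [AddCommGroup P] [Module A P] [AddCommGroup P₀] [Module A P₀]
  [AddCommGroup P'] [Module A P'] [AddCommGroup P₀'] [Module A P₀']
  {π : P →ₗ[A] P₀} {π' : P' →ₗ[A] P₀'}

theorem isNilpotent_of_mem_smul (hI : IsNilpotent I) (N : Module.End A P)
    (h : ∀ x, N x ∈ I • (⊤ : Submodule A P)) : IsNilpotent N := by
  obtain ⟨k, hk⟩ := hI
  have key : ∀ m : ℕ, ∀ x, (N ^ m) x ∈ (I ^ m) • (⊤ : Submodule A P) := by
    intro m
    induction m with
    | zero => intro x; simp
    | succ m ih =>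
      intro x
      rw [pow_succ' N, Module.End.mul_apply]
      have h1 : Submodule.map N ((I ^ m) • (⊤ : Submodule A P)) ≤
          (I ^ (m + 1)) • (⊤ : Submodule A P) := by
        rw [Submodule.map_smul'', pow_succ, mul_smul]
        refine Submodule.smul_mono le_rfl ?_
        rintro _ ⟨y, -, rfl⟩
        exact h y
      exact h1 ⟨_, ih x, rfl⟩
  refine ⟨k, LinearMap.ext fun x => ?_⟩
  have h1 := key k x
  rw [hk] at h1
  simpa using h1

theorem bijective_of_comp (hI : IsNilpotent I) {φ : P →ₗ[A] P'} {ψ : P' →ₗ[A] P}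
    (h1 : ∀ x, ψ (φ x) - x ∈ I • (⊤ : Submodule A P))
    (h2 : ∀ x, φ (ψ x) - x ∈ I • (⊤ : Submodule A P')) : Function.Bijective φ := by
  have u1 : IsUnit (ψ ∘ₗ φ : Module.End A P) := by
    have hN : IsNilpotent ((ψ ∘ₗ φ : Module.End A P) - 1) :=
      isNilpotent_of_mem_smul hI _ (fun x => by simpa using h1 x)
    have := hN.isUnit_one_add
    rwa [add_sub_cancel] at this
  have u2 : IsUnit (φ ∘ₗ ψ : Module.End A P') := by
    have hN : IsNilpotent ((φ ∘ₗ ψ : Module.End A P') - 1) :=
      isNilpotent_of_mem_smul hI _ (fun x => by simpa using h2 x)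
    have := hN.isUnit_one_add
    rwa [add_sub_cancel] at this
  rw [Module.End.isUnit_iff] at u1 u2
  constructor
  · have := u1.1
    rw [LinearMap.coe_comp] at this
    exact this.of_comp
  · have := u2.2
    rw [LinearMap.coe_comp] at this
    exact this.of_comp

/-- isomorphisms of reductions of projective modules lift. -/
theorem IsRed.exists_equiv (hI : IsNilpotent I) [Module.Projective A P]
    [Module.Projective A P'] (hπ : IsRed I π) (hπ' : IsRed I π') (e₀ : P₀ ≃ₗ[A] P₀') :
    ∃ e : P ≃ₗ[A] P', ∀ x, π' (e x) = e₀ (π x) := by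
  obtain ⟨φ, hφ⟩ := Module.projective_lifting_property π' (e₀.toLinearMap ∘ₗ π) hπ'.surj
  obtain ⟨ψ, hψ⟩ := Module.projective_lifting_property π (e₀.symm.toLinearMap ∘ₗ π') hπ.surj
  have hφ' : ∀ x, π' (φ x) = e₀ (π x) := fun x => LinearMap.congr_fun hφ x
  have hψ' : ∀ x, π (ψ x) = e₀.symm (π' x) := fun x => LinearMap.congr_fun hψ x
  have hbij : Function.Bijective φ := by
    refine bijective_of_comp hI (ψ := ψ) (fun x => ?_) (fun x => ?_)
    · rw [← hπ.ker, LinearMap.mem_ker, map_sub, hψ', hφ', LinearEquiv.symm_apply_apply, sub_self]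
    · rw [← hπ'.ker, LinearMap.mem_ker, map_sub, hφ', hψ', LinearEquiv.apply_symm_apply, sub_self]
  exact ⟨LinearEquiv.ofBijective φ hbij, hφ'⟩

end Red

section BaseChange

variable {A A₀ : Type*} [CommRing A] [CommRing A₀] [Algebra A A₀]

/-- the reduction `P → A₀ ⊗ P`. -/
theorem isRed_mk (hs : Function.Surjective (algebraMap A A₀)) (P : Type*) [AddCommGroup P]
    [Module A P] : IsRed (RingHom.ker (algebraMap A A₀)) (TensorProduct.mk A A₀ P 1) where
  surj := by
    intro z
    induction z with
    | zero => exact ⟨0, map_zero _⟩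
    | tmul a p =>
      obtain ⟨b, rfl⟩ := hs a
      refine ⟨b • p, ?_⟩
      rw [TensorProduct.mk_apply, ← TensorProduct.smul_tmul, Algebra.algebraMap_eq_smul_one]
    | add x y hx hy =>
      obtain ⟨a, rfl⟩ := hx
      obtain ⟨b, rfl⟩ := hy
      exact ⟨a + b, map_add _ _ _⟩
  ker := by
    set I := RingHom.ker (algebraMap A A₀) with hI
    rw [← Ideal.subtype_rTensor_range]
    have h1 : Function.Exact I.subtype (Algebra.linearMap A A₀) := by
      intro x
      simp [hI, RingHom.mem_ker]
    have h2 := rTensor_exact P h1 hs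
    have h3 : TensorProduct.mk A A₀ P 1 =
        ((Algebra.linearMap A A₀).rTensor P).comp (TensorProduct.lid A P).symm.toLinearMap := by
      ext x; simp
    rw [h3, LinearMap.ker_comp, LinearMap.exact_iff.mp h2]
    ext x
    simp only [Submodule.mem_comap, LinearMap.mem_range, LinearEquiv.coe_coe,
      LinearMap.coe_comp, Function.comp_apply]
    constructor
    · rintro ⟨y, hy⟩
      exact ⟨y, by rw [hy, LinearEquiv.apply_symm_apply]⟩
    · rintro ⟨y, hy⟩
      exact ⟨y, by rw [← hy, LinearEquiv.symm_apply_apply]⟩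

/-- for `A₀`-modules, `A`-linear equivalences are `A₀`-linear. -/
noncomputable def extendEquiv (hs : Function.Surjective (algebraMap A A₀)) {M N : Type*}
    [AddCommGroup M] [AddCommGroup N] [Module A M] [Module A N] [Module A₀ M] [Module A₀ N]
    [IsScalarTower A A₀ M] [IsScalarTower A A₀ N] (e : M ≃ₗ[A] N) : M ≃ₗ[A₀] N :=
  { e with
    map_smul' := fun a x => by
      obtain ⟨b, rfl⟩ := hs a
      simp [algebraMap_smul] }

/-- a reduction with values in an `A₀`-module is the base change. -/
theorem IsRed.isBaseChange (hs : Function.Surjective (algebraMap A A₀))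
    {P P₀ : Type*} [AddCommGroup P] [Module A P] [AddCommGroup P₀] [Module A P₀] [Module A₀ P₀]
    [IsScalarTower A A₀ P₀] {π : P →ₗ[A] P₀}
    (hπ : IsRed (RingHom.ker (algebraMap A A₀)) π) : IsBaseChange A₀ π := by
  have hinj : Function.Injective (LinearMap.liftBaseChange A₀ π) := by
    rw [injective_iff_map_eq_zero]
    intro z hz
    obtain ⟨x, rfl⟩ := (isRed_mk hs P).surj z
    rw [TensorProduct.mk_apply, LinearMap.liftBaseChange_tmul, one_smul] at hz
    rw [← LinearMap.mem_ker, (isRed_mk hs P).ker, ← hπ.ker, LinearMap.mem_ker]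
    exact hz
  have hsurj : Function.Surjective (LinearMap.liftBaseChange A₀ π) := by
    intro y
    obtain ⟨x, rfl⟩ := hπ.surj y
    exact ⟨1 ⊗ₜ x, by rw [LinearMap.liftBaseChange_tmul, one_smul]⟩
  exact IsBaseChange.of_equiv (LinearEquiv.ofBijective _ ⟨hinj, hsurj⟩)
    (fun x => by simp [LinearEquiv.ofBijective_apply])

/-- base changes along a surjection are reductions. -/
theorem isRed_of_isBaseChange (hs : Function.Surjective (algebraMap A A₀))
    {P P₀ : Type*} [AddCommGroup P] [Module A P] [AddCommGroup P₀] [Module A P₀] [Module A₀ P₀]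
    [IsScalarTower A A₀ P₀] {π : P →ₗ[A] P₀} (h : IsBaseChange A₀ π) :
    IsRed (RingHom.ker (algebraMap A A₀)) π := by
  have h1 : ∀ x, h.equiv (1 ⊗ₜ x) = π x := fun x => by rw [h.equiv_tmul, one_smul]
  refine ⟨fun y => ?_, ?_⟩
  · obtain ⟨x, hx⟩ := (isRed_mk hs P).surj (h.equiv.symm y)
    refine ⟨x, ?_⟩
    rw [← h1, ← TensorProduct.mk_apply, hx, LinearEquiv.apply_symm_apply]
  · rw [← (isRed_mk hs P).ker]
    ext x
    rw [LinearMap.mem_ker, LinearMap.mem_ker, ← h1, TensorProduct.mk_apply]
    exact h.equiv.map_eq_zero_iff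

end BaseChange

section Existence

variable {A A₀ : Type*} [CommRing A] [CommRing A₀] [Algebra A A₀]

theorem isNilpotent_matrix {n : ℕ} (hn : IsNilpotent (RingHom.ker (algebraMap A A₀)))
    (X : Matrix (Fin n) (Fin n) A)
    (hX : X ∈ RingHom.ker ((algebraMap A A₀).mapMatrix (m := Fin n))) : IsNilpotent X := by
  obtain ⟨k, hk⟩ := hn
  have h0 : ∀ i j, X i j ∈ RingHom.ker (algebraMap A A₀) := fun i j => by
    have := congrFun (congrFun hX i) j
    simpa using this
  have key : ∀ m : ℕ, ∀ i j, (X ^ m) i j ∈ (RingHom.ker (algebraMap A A₀)) ^ m := by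
    intro m
    induction m with
    | zero => intro i j; simp
    | succ m ih =>
      intro i j
      rw [pow_succ X, Matrix.mul_apply, pow_succ (RingHom.ker (algebraMap A A₀))]
      exact Ideal.sum_mem _ (fun l _ => Ideal.mul_mem_mul (ih i l) (h0 l j))
  refine ⟨k, ?_⟩
  ext i j
  have := key k i j
  rw [hk] at this
  simpa using this

/-- finitely generated projective modules lift along nilpotent thickenings. -/
theorem exists_lift_projective (hs : Function.Surjective (algebraMap A A₀))
    (hn : IsNilpotent (RingHom.ker (algebraMap A A₀)))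
    (M₀ : Type*) [AddCommGroup M₀] [Module A M₀] [Module A₀ M₀] [IsScalarTower A A₀ M₀]
    [Module.Finite A₀ M₀] [Module.Projective A₀ M₀] :
    ∃ (n : ℕ) (M : Submodule A (Fin n → A)) (π : M →ₗ[A] M₀),
      Module.Finite A M ∧ Module.Projective A M ∧
        IsRed (RingHom.ker (algebraMap A A₀)) π := by
  obtain ⟨n, f, g, -, -, hfg⟩ := Module.Finite.exists_comp_eq_id_of_projective A₀ M₀
  have hfg' : ∀ x, f (g x) = x := fun x => LinearMap.congr_fun hfg x
  let e₀ : Matrix (Fin n) (Fin n) A₀ := LinearMap.toMatrix' (g ∘ₗ f)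
  have he₀ : IsIdempotentElem e₀ := by
    rw [IsIdempotentElem, ← LinearMap.toMatrix'_comp]
    have : (g ∘ₗ f) ∘ₗ (g ∘ₗ f) = g ∘ₗ f := LinearMap.ext (fun x => by
      change g (f (g (f x))) = g (f x)
      rw [hfg'])
    rw [this]
  obtain ⟨e, he, hee⟩ := exists_isIdempotentElem_eq_of_ker_isNilpotent
    ((algebraMap A A₀).mapMatrix (m := Fin n)) (isNilpotent_matrix hn) e₀
    (by
      choose s hs' using hs
      exact ⟨Matrix.of (fun i j => s (e₀ i j)), by ext i j; simp [hs']⟩) he₀
  let E : (Fin n → A) →ₗ[A] (Fin n → A) := Matrix.toLin' e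
  have hE : ∀ v, E (E v) = E v := fun v => by
    have : (E ∘ₗ E) v = E v := by
      rw [← Matrix.toLin'_mul, he.eq]
    exact this
  let red : (Fin n → A) →ₗ[A] (Fin n → A₀) :=
    { toFun := fun v i => algebraMap A A₀ (v i)
      map_add' := fun v w => by ext i; simp
      map_smul' := fun a v => by ext i; simp [Algebra.smul_def] }
  have hred : ∀ v, red (E v) = g (f (red v)) := fun v => by
    have h1 : g (f (red v)) = e₀.mulVec (red v) := by
      have : (g ∘ₗ f) (red v) = (Matrix.toLin' e₀) (red v) := by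
        rw [Matrix.toLin'_toMatrix']
      rw [Matrix.toLin'_apply] at this
      exact this
    rw [h1, ← hee]
    ext i
    simp [red, E, Matrix.mulVec, dotProduct, map_sum]
  let M : Submodule A (Fin n → A) := LinearMap.range E
  let π : M →ₗ[A] M₀ := (f.restrictScalars A) ∘ₗ red ∘ₗ M.subtype
  have hπ : ∀ v : M, π v = f (red v) := fun v => rfl
  have hM : ∀ v : M, E v = v := by
    rintro ⟨_, w, rfl⟩
    exact hE w
  have hsplit : E.rangeRestrict ∘ₗ M.subtype = LinearMap.id := by
    ext v : 2
    exact hM v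
  refine ⟨n, M, π, ?_, ?_, ?_, ?_⟩
  · exact Module.Finite.range E
  · exact Module.Projective.of_split M.subtype E.rangeRestrict hsplit
  · intro m
    choose s hs' using hs
    refine ⟨⟨E (fun i => s (g m i)), _, rfl⟩, ?_⟩
    rw [hπ]
    have h1 : red (fun i => s (g m i)) = g m := by
      ext i
      exact hs' _
    have h2 : red (E (fun i => s (g m i))) = g m := by
      rw [hred, h1, hfg']
    change f (red (E (fun i => s (g m i)))) = m
    rw [h2, hfg']
  · apply le_antisymm
    · intro v hv
      rw [LinearMap.mem_ker, hπ] at hv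
      have h1 : red (v : Fin n → A) = 0 := by
        rw [← hM v, hred, hv, map_zero]
      have h2 : ∀ i, (v : Fin n → A) i ∈ RingHom.ker (algebraMap A A₀) := fun i =>
        congrFun h1 i
      have h3 : v = ∑ i, (v : Fin n → A) i • E.rangeRestrict (Pi.single i 1) := by
        apply Subtype.ext
        rw [← hM v]
        conv_lhs => rw [← Finset.univ_sum_single (v : Fin n → A)]
        rw [map_sum, AddSubmonoidClass.coe_finset_sum]
        refine Finset.sum_congr rfl (fun i _ => ?_)
        have h4 : ((E.rangeRestrict (Pi.single i 1) : M) : Fin n → A) = E (Pi.single i 1) := rfl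
        rw [Submodule.coe_smul, h4, hM v, ← map_smul]
        congr 1
        ext j
        simp [Pi.single_apply]
      rw [h3]
      exact Submodule.sum_mem _ (fun i _ => Submodule.smul_mem_smul (h2 i) trivial)
    · rw [Submodule.smul_le]
      intro a ha v _
      rw [LinearMap.mem_ker, map_smul, ← algebraMap_smul A₀ a, (ha : algebraMap A A₀ a = 0),
        zero_smul]

end Existence

end Fermat.Agent.JKL
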