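import Fermat.Agent.JPC.Base
import Fermat.Agent.JKL.Lift

/-!
# S25, blocks K, L: line data as modules over `B ⊗ A`
-/

set_option autoImplicit false

noncomputable section

universe u

open TensorProduct

namespace Fermat.Agent.JKL

open Fermat.Agent.JPC

variable {k : Type u} [Field k] (X : TwoChart k) (B : Type u) [CommRing B] [Algebra k B]

/-- `B ⊗ A0 → B ⊗ A` -/
def ι0 : B ⊗[k] X.A0 →ₐ[B] B ⊗[k] X.A := Algebra.TensorProduct.map (AlgHom.id B B) X.A0.val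

/-- `B ⊗ A1 → B ⊗ A` -/
def ι1 : B ⊗[k] X.A1 →ₐ[B] B ⊗[k] X.A := Algebra.TensorProduct.map (AlgHom.id B B) X.A1.val

@[simp] theorem ι0_tmul (b : B) (a : X.A0) : ι0 X B (b ⊗ₜ a) = b ⊗ₜ (a : X.A) := rfl
@[simp] theorem ι1_tmul (b : B) (a : X.A1) : ι1 X B (b ⊗ₜ a) = b ⊗ₜ (a : X.A) := rfl

theorem ι0_injective : Function.Injective (ι0 X B) := by
  have h : (ι0 X B : B ⊗[k] X.A0 → B ⊗[k] X.A) = (X.A0.val.toLinearMap).lTensor B := by
    ext z
    induction z with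
    | zero => simp
    | tmul b a => simp
    | add x y hx hy => simp only [map_add, hx, hy]
  rw [h]
  exact Module.Flat.lTensor_preserves_injective_linearMap _ Subtype.val_injective

theorem ι1_injective : Function.Injective (ι1 X B) := by
  have h : (ι1 X B : B ⊗[k] X.A1 → B ⊗[k] X.A) = (X.A1.val.toLinearMap).lTensor B := by
    ext z
    induction z with
    | zero => simp
    | tmul b a => simp
    | add x y hx hy => simp only [map_add, hx, hy]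
  rw [h]
  exact Module.Flat.lTensor_preserves_injective_linearMap _ Subtype.val_injective

/-- `1 ⊗ t ∈ B ⊗ A0` -/
def t0 : B ⊗[k] X.A0 := 1 ⊗ₜ ⟨X.t, X.t_mem⟩

/-- `1 ⊗ t⁻¹ ∈ B ⊗ A1` -/
def t1 : B ⊗[k] X.A1 := 1 ⊗ₜ ⟨((X.t⁻¹ : X.Aˣ) : X.A), X.tinv_mem⟩

theorem ι0_t0 : ι0 X B (t0 X B) = 1 ⊗ₜ (X.t : X.A) := rfl
theorem ι1_t1 : ι1 X B (t1 X B) = 1 ⊗ₜ ((X.t⁻¹ : X.Aˣ) : X.A) := rfl

/-- the unit `1 ⊗ t` -/
def tU : (B ⊗[k] X.A)ˣ where
  val := 1 ⊗ₜ (X.t : X.A)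
  inv := 1 ⊗ₜ ((X.t⁻¹ : X.Aˣ) : X.A)
  val_inv := by rw [Algebra.TensorProduct.tmul_mul_tmul, Units.mul_inv, one_mul]; rfl
  inv_val := by rw [Algebra.TensorProduct.tmul_mul_tmul, Units.inv_mul, one_mul]; rfl

/-- algebra structure of `B ⊗ A` over `B ⊗ A0` -/
@[reducible] def alg0 : Algebra (B ⊗[k] X.A0) (B ⊗[k] X.A) := (ι0 X B).toRingHom.toAlgebra

/-- algebra structure of `B ⊗ A` over `B ⊗ A1` -/
@[reducible] def alg1 : Algebra (B ⊗[k] X.A1) (B ⊗[k] X.A) := (ι1 X B).toRingHom.toAlgebra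

theorem exists_t0_pow (z : B ⊗[k] X.A) : ∃ (n : ℕ) (y : B ⊗[k] X.A0),
    ι0 X B (t0 X B ^ n) * z = ι0 X B y := by
  induction z with
  | zero => exact ⟨0, 0, by simp⟩
  | tmul b a =>
    obtain ⟨n, hn⟩ := X.ex0 a
    refine ⟨n, b ⊗ₜ ⟨_, hn⟩, ?_⟩
    rw [map_pow, ι0_t0, Algebra.TensorProduct.tmul_pow, one_pow,
      Algebra.TensorProduct.tmul_mul_tmul, one_mul, ι0_tmul]
  | add x y hx hy =>
    obtain ⟨n, x', hx⟩ := hx
    obtain ⟨m, y', hy⟩ := hy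
    refine ⟨n + m, t0 X B ^ m * x' + t0 X B ^ n * y', ?_⟩
    rw [map_add, map_mul, map_mul, ← hx, ← hy, pow_add, map_mul]
    ring

theorem exists_t1_pow (z : B ⊗[k] X.A) : ∃ (n : ℕ) (y : B ⊗[k] X.A1),
    ι1 X B (t1 X B ^ n) * z = ι1 X B y := by
  induction z with
  | zero => exact ⟨0, 0, by simp⟩
  | tmul b a =>
    obtain ⟨n, hn⟩ := X.ex1 a
    refine ⟨n, b ⊗ₜ ⟨_, hn⟩, ?_⟩
    rw [map_pow, ι1_t1, Algebra.TensorProduct.tmul_pow, one_pow,
      Algebra.TensorProduct.tmul_mul_tmul, one_mul, ι1_tmul]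
  | add x y hx hy =>
    obtain ⟨n, x', hx⟩ := hx
    obtain ⟨m, y', hy⟩ := hy
    refine ⟨n + m, t1 X B ^ m * x' + t1 X B ^ n * y', ?_⟩
    rw [map_add, map_mul, map_mul, ← hx, ← hy, pow_add, map_mul]
    ring

theorem isUnit_ι0_t0 : IsUnit (ι0 X B (t0 X B)) := ⟨tU X B, rfl⟩

theorem isUnit_ι1_t1 : IsUnit (ι1 X B (t1 X B)) := ⟨(tU X B)⁻¹, rfl⟩

theorem isLocAway0 : letI := alg0 X B
    IsLocalization.Away (t0 X B) (B ⊗[k] X.A) := by
  letI := alg0 X B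
  have halg : ∀ y, algebraMap (B ⊗[k] X.A0) (B ⊗[k] X.A) y = ι0 X B y := fun _ => rfl
  constructor
  refine ⟨?_, ?_, ?_⟩
  · rintro ⟨_, n, rfl⟩
    rw [halg, map_pow]
    exact (isUnit_ι0_t0 X B).pow n
  · intro z
    obtain ⟨n, y, h⟩ := exists_t0_pow X B z
    exact ⟨⟨y, ⟨_, n, rfl⟩⟩, by rw [halg, halg, mul_comm]; exact h⟩
  · intro x y h
    exact ⟨1, by rw [ι0_injective X B h]⟩

theorem isLocAway1 : letI := alg1 X B
    IsLocalization.Away (t1 X B) (B ⊗[k] X.A) := by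
  letI := alg1 X B
  have halg : ∀ y, algebraMap (B ⊗[k] X.A1) (B ⊗[k] X.A) y = ι1 X B y := fun _ => rfl
  constructor
  refine ⟨?_, ?_, ?_⟩
  · rintro ⟨_, n, rfl⟩
    rw [halg, map_pow]
    exact (isUnit_ι1_t1 X B).pow n
  · intro z
    obtain ⟨n, y, h⟩ := exists_t1_pow X B z
    exact ⟨⟨y, ⟨_, n, rfl⟩⟩, by rw [halg, halg, mul_comm]; exact h⟩
  · intro x y h
    exact ⟨1, by rw [ι1_injective X B h]⟩

variable {X B}

theorem ι0_smul (L : PreLD X B) (s : B ⊗[k] X.A0) (m : L.M) : ι0 X B s • m = s • m := by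
  induction s with
  | zero => rw [map_zero, zero_smul (B ⊗[k] X.A) m, zero_smul (B ⊗[k] X.A0) m]
  | tmul b a => rfl
  | add x y hx hy => rw [map_add, add_smul, add_smul, hx, hy]

theorem ι1_smul (L : PreLD X B) (s : B ⊗[k] X.A1) (m : L.M) : ι1 X B s • m = s • m := by
  induction s with
  | zero => rw [map_zero, zero_smul (B ⊗[k] X.A) m, zero_smul (B ⊗[k] X.A1) m]
  | tmul b a => rfl
  | add x y hx hy => rw [map_add, add_smul, add_smul, hx, hy]

theorem tower0 (L : PreLD X B) : letI := alg0 X B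
    IsScalarTower (B ⊗[k] X.A0) (B ⊗[k] X.A) L.M := by
  letI := alg0 X B
  refine ⟨fun s r m => ?_⟩
  rw [Algebra.smul_def, mul_smul]
  exact ι0_smul L s _

theorem tower1 (L : PreLD X B) : letI := alg1 X B
    IsScalarTower (B ⊗[k] X.A1) (B ⊗[k] X.A) L.M := by
  letI := alg1 X B
  refine ⟨fun s r m => ?_⟩
  rw [Algebra.smul_def, mul_smul]
  exact ι1_smul L s _

section Mk

variable (X)
variable (M : Type u) [AddCommGroup M] [Module (B ⊗[k] X.A) M] (N0 N1 : AddSubgroup M)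
  (h0 : ∀ (s : B ⊗[k] X.A0) (m : M), m ∈ N0 → ι0 X B s • m ∈ N0)
  (h1 : ∀ (s : B ⊗[k] X.A1) (m : M), m ∈ N1 → ι1 X B s • m ∈ N1)
  (e0 : ∀ m : M, ∃ n : ℕ, (ι0 X B (t0 X B) ^ n) • m ∈ N0)
  (e1 : ∀ m : M, ∃ n : ℕ, (ι1 X B (t1 X B) ^ n) • m ∈ N1)

/-- line data from a module over `B ⊗ A`. -/
def mkLD : PreLD X B :=
  letI modB : Module B M := Module.compHom M (algebraMap B (B ⊗[k] X.A))
  letI modA : Module X.A M :=
    Module.compHom M (Algebra.TensorProduct.includeRight : X.A →ₐ[k] B ⊗[k] X.A).toRingHom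
  letI modk : Module k M := Module.compHom M (algebraMap k (B ⊗[k] X.A))
  have hB : ∀ (b : B) (m : M), b • m = (b ⊗ₜ[k] (1 : X.A)) • m := fun _ _ => rfl
  have hA : ∀ (a : X.A) (m : M), a • m = ((1 : B) ⊗ₜ[k] a) • m := fun _ _ => rfl
  have hk : ∀ (c : k) (m : M), c • m = (algebraMap k (B ⊗[k] X.A) c) • m := fun _ _ => rfl
  { M := M
    modB := modB
    modA := modA
    modk := modk
    kB := ⟨fun c b m => by
      rw [hB, hB, hk, ← mul_smul]
      congr 1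
      rw [Algebra.algebraMap_eq_smul_one, smul_mul_assoc, one_mul, TensorProduct.smul_tmul']⟩
    kA := ⟨fun c a m => by
      rw [hA, hA, hk, ← mul_smul]
      congr 1
      rw [Algebra.algebraMap_eq_smul_one, smul_mul_assoc, one_mul, TensorProduct.tmul_smul]⟩
    comm := ⟨fun b a m => by
      rw [hB, hB, hA, hA, ← mul_smul, ← mul_smul, mul_comm]⟩
    M0 :=
      { carrier := N0
        add_mem' := N0.add_mem
        zero_mem' := N0.zero_mem
        smul_mem' := fun b m hm => h0 (b ⊗ₜ 1) m hm }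
    M1 :=
      { carrier := N1
        add_mem' := N1.add_mem
        zero_mem' := N1.zero_mem
        smul_mem' := fun b m hm => h1 (b ⊗ₜ 1) m hm }
    smul0 := fun a ha m hm => h0 (1 ⊗ₜ ⟨a, ha⟩) m hm
    smul1 := fun a ha m hm => h1 (1 ⊗ₜ ⟨a, ha⟩) m hm
    ex0 := fun m => by
      obtain ⟨n, hn⟩ := e0 m
      refine ⟨n, ?_⟩
      rw [hA]
      rw [ι0_t0, Algebra.TensorProduct.tmul_pow, one_pow] at hn
      exact hn
    ex1 := fun m => by
      obtain ⟨n, hn⟩ := e1 m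
      refine ⟨n, ?_⟩
      rw [hA]
      rw [ι1_t1, Algebra.TensorProduct.tmul_pow, one_pow] at hn
      exact hn }

theorem mkLD_smul (s : B ⊗[k] X.A) (m : M) :
    (s • (show (mkLD X M N0 N1 h0 h1 e0 e1).M from m) :
      (mkLD X M N0 N1 h0 h1 e0 e1).M) = (s • m : M) := by
  induction s with
  | zero =>
    rw [zero_smul (B ⊗[k] X.A) m]
    exact zero_smul (B ⊗[k] X.A) (show (mkLD X M N0 N1 h0 h1 e0 e1).M from m)
  | tmul b a =>
    change ((b ⊗ₜ[k] (1 : X.A)) • (((1 : B) ⊗ₜ[k] a) • m) : M) = _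
    rw [← mul_smul, Algebra.TensorProduct.tmul_mul_tmul, mul_one, one_mul]
  | add x y hx hy =>
    rw [add_smul x y m, ← hx, ← hy]
    exact add_smul x y (show (mkLD X M N0 N1 h0 h1 e0 e1).M from m)

end Mk

end Fermat.Agent.JKL

end
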