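import Fermat.Agent.JKL.Loc
import Fermat.Agent.JKL.Inv

/-!
# S25, block K: restriction of scalars of line data along `B → B'`
-/

set_option autoImplicit false

noncomputable section

universe u

open TensorProduct

namespace Fermat.Agent.JKL

open Fermat.Agent.JPC

variable {k : Type u} [Field k] {X : TwoChart k}
variable (B B' : Type u) [CommRing B] [Algebra k B] [CommRing B'] [Algebra k B'] [Algebra B B']
  [IsScalarTower k B B']

/-- `B ⊗ C → B' ⊗ C` -/
def φm (C : Type u) [CommRing C] [Algebra k C] : B ⊗[k] C →ₐ[B] B' ⊗[k] C :=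
  Algebra.TensorProduct.map (Algebra.ofId B B') (AlgHom.id k C)

@[simp] theorem φm_tmul (C : Type u) [CommRing C] [Algebra k C] (b : B) (c : C) :
    φm (k := k) B B' C (b ⊗ₜ c) = algebraMap B B' b ⊗ₜ c := rfl

theorem φm_surjective (hs : Function.Surjective (algebraMap B B')) (C : Type u) [CommRing C]
    [Algebra k C] : Function.Surjective (φm (k := k) B B' C) := by
  intro z
  induction z with
  | zero => exact ⟨0, map_zero _⟩
  | tmul b c =>
    obtain ⟨b, rfl⟩ := hs b
    exact ⟨b ⊗ₜ c, rfl⟩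
  | add x y hx hy =>
    obtain ⟨a, rfl⟩ := hx
    obtain ⟨b, rfl⟩ := hy
    exact ⟨a + b, map_add _ _ _⟩

theorem ker_φm (hs : Function.Surjective (algebraMap B B')) (C : Type u) [CommRing C]
    [Algebra k C] : RingHom.ker (φm (k := k) B B' C) =
      (RingHom.ker (algebraMap B B')).map (algebraMap B (B ⊗[k] C)) := by
  have h := Algebra.TensorProduct.rTensor_ker (R := k) (C := C)
    (f := (IsScalarTower.toAlgHom k B B')) hs
  have h1 : RingHom.ker (φm (k := k) B B' C) =
      RingHom.ker (Algebra.TensorProduct.map (IsScalarTower.toAlgHom k B B') (AlgHom.id k C)) := by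
    ext z
    rw [RingHom.mem_ker, RingHom.mem_ker]
    have : φm (k := k) B B' C z =
        Algebra.TensorProduct.map (IsScalarTower.toAlgHom k B B') (AlgHom.id k C) z := by
      induction z with
      | zero => simp
      | tmul b c => rfl
      | add x y hx hy => rw [map_add, map_add, hx, hy]
    rw [this]
  rw [h1, h]
  rfl

theorem isNilpotent_ker_φm (hs : Function.Surjective (algebraMap B B'))
    (hn : IsNilpotent (RingHom.ker (algebraMap B B'))) (C : Type u) [CommRing C]
    [Algebra k C] : IsNilpotent (RingHom.ker (φm (k := k) B B' C)) := by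
  obtain ⟨n, hn⟩ := hn
  refine ⟨n, ?_⟩
  rw [ker_φm B B' hs, ← Ideal.map_pow, hn]
  exact Ideal.map_bot

variable {B'}

/-- restriction of scalars of a line datum -/
def resLD (L : PreLD X B') : PreLD X B :=
  letI modB : Module B L.M := Module.compHom L.M (algebraMap B B')
  have hB : ∀ (b : B) (m : L.M), b • m = algebraMap B B' b • m := fun _ _ => rfl
  { M := L.M
    modB := modB
    kB := ⟨fun c b m => by
      rw [hB, hB, Algebra.smul_def, map_mul, ← IsScalarTower.algebraMap_apply, mul_smul,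
        algebraMap_smul]⟩
    comm := ⟨fun b a m => by rw [hB, hB, smul_comm]⟩
    M0 :=
      { carrier := L.M0
        add_mem' := L.M0.add_mem
        zero_mem' := L.M0.zero_mem
        smul_mem' := fun b m hm => L.M0.smul_mem (algebraMap B B' b) hm }
    M1 :=
      { carrier := L.M1
        add_mem' := L.M1.add_mem
        zero_mem' := L.M1.zero_mem
        smul_mem' := fun b m hm => L.M1.smul_mem (algebraMap B B' b) hm }
    smul0 := L.smul0
    smul1 := L.smul1
    ex0 := L.ex0
    ex1 := L.ex1 }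

theorem resLD_smul (L : PreLD X B') (s : B ⊗[k] X.A) (m : L.M) :
    (s • (show (resLD B L).M from m) : (resLD B L).M) = (φm B B' X.A s • m : L.M) := by
  induction s with
  | zero =>
    rw [map_zero, zero_smul (B' ⊗[k] X.A) m]
    exact zero_smul (B ⊗[k] X.A) (show (resLD B L).M from m)
  | tmul b a => rfl
  | add x y hx hy =>
    rw [map_add, add_smul (φm B B' X.A x) _ m, ← hx, ← hy]
    exact add_smul x y (show (resLD B L).M from m)

theorem resLD_smul0 (L : PreLD X B') (s : B ⊗[k] X.A0) (m : L.M) :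
    (s • (show (resLD B L).M from m) : (resLD B L).M) = (φm B B' X.A0 s • m : L.M) := by
  induction s with
  | zero =>
    rw [map_zero, zero_smul (B' ⊗[k] X.A0) m]
    exact zero_smul (B ⊗[k] X.A0) (show (resLD B L).M from m)
  | tmul b a => rfl
  | add x y hx hy =>
    rw [map_add, add_smul (φm B B' X.A0 x) _ m, ← hx, ← hy]
    exact add_smul x y (show (resLD B L).M from m)

theorem resLD_smul1 (L : PreLD X B') (s : B ⊗[k] X.A1) (m : L.M) :
    (s • (show (resLD B L).M from m) : (resLD B L).M) = (φm B B' X.A1 s • m : L.M) := by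
  induction s with
  | zero =>
    rw [map_zero, zero_smul (B' ⊗[k] X.A1) m]
    exact zero_smul (B ⊗[k] X.A1) (show (resLD B L).M from m)
  | tmul b a => rfl
  | add x y hx hy =>
    rw [map_add, add_smul (φm B B' X.A1 x) _ m, ← hx, ← hy]
    exact add_smul x y (show (resLD B L).M from m)

variable {B}

/-- the lift of `M0'`. -/
theorem exists_P0 (hs : Function.Surjective (algebraMap B B'))
    (hn : IsNilpotent (RingHom.ker (algebraMap B B'))) (L : PreLD X B') (h : L.IsLine) :
    ∃ (P : Type u) (_ : AddCommGroup P) (_ : Module (B ⊗[k] X.A0) P)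
      (π : P →ₗ[B ⊗[k] X.A0] (resLD B L).M),
      Module.Invertible (B ⊗[k] X.A0) P ∧ LinearMap.range π = (resLD B L).M0' ∧
        LinearMap.ker π = RingHom.ker (φm (k := k) B B' X.A0) • (⊤ : Submodule (B ⊗[k] X.A0) P) := by
  letI : Algebra (B ⊗[k] X.A0) (B' ⊗[k] X.A0) := (φm (k := k) B B' X.A0).toRingHom.toAlgebra
  letI : Module (B ⊗[k] X.A0) L.M0' := Module.compHom _ (φm (k := k) B B' X.A0).toRingHom
  haveI : IsScalarTower (B ⊗[k] X.A0) (B' ⊗[k] X.A0) L.M0' :=
    ⟨fun a b x => Subtype.ext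
      (mul_smul (φm (k := k) B B' X.A0 a) b (x : L.M))⟩
  haveI := h.inv0
  obtain ⟨n, P, π, hinv, hπ⟩ := exists_lift_invertible (A := B ⊗[k] X.A0) (A₀ := B' ⊗[k] X.A0)
    (φm_surjective B B' hs X.A0) (isNilpotent_ker_φm B B' hs hn X.A0) L.M0'
  let π' : P →ₗ[B ⊗[k] X.A0] (resLD B L).M :=
    { toFun := fun p => ((π p : L.M0') : L.M)
      map_add' := fun x y => by rw [map_add]; rfl
      map_smul' := fun s p => by
        rw [map_smul]
        exact (resLD_smul0 B L s _).symm }
  refine ⟨P, inferInstance, inferInstance, π', hinv, ?_, ?_⟩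
  · ext m
    constructor
    · rintro ⟨p, rfl⟩
      exact (π p).2
    · intro hm
      obtain ⟨p, hp⟩ := hπ.surj ⟨m, hm⟩
      exact ⟨p, congrArg Subtype.val hp⟩
  · have hk : RingHom.ker (φm (k := k) B B' X.A0) =
      RingHom.ker (algebraMap (B ⊗[k] X.A0) (B' ⊗[k] X.A0)) := rfl
    rw [hk, ← hπ.ker]
    ext p
    rw [LinearMap.mem_ker, LinearMap.mem_ker]
    exact ⟨fun h => Subtype.ext h, fun h => congrArg Subtype.val h⟩

/-- the lift of `M1'`. -/
theorem exists_P1 (hs : Function.Surjective (algebraMap B B'))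
    (hn : IsNilpotent (RingHom.ker (algebraMap B B'))) (L : PreLD X B') (h : L.IsLine) :
    ∃ (P : Type u) (_ : AddCommGroup P) (_ : Module (B ⊗[k] X.A1) P)
      (π : P →ₗ[B ⊗[k] X.A1] (resLD B L).M),
      Module.Invertible (B ⊗[k] X.A1) P ∧ LinearMap.range π = (resLD B L).M1' ∧
        LinearMap.ker π = RingHom.ker (φm (k := k) B B' X.A1) • (⊤ : Submodule (B ⊗[k] X.A1) P) := by
  letI : Algebra (B ⊗[k] X.A1) (B' ⊗[k] X.A1) := (φm (k := k) B B' X.A1).toRingHom.toAlgebra
  letI : Module (B ⊗[k] X.A1) L.M1' := Module.compHom _ (φm (k := k) B B' X.A1).toRingHom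
  haveI : IsScalarTower (B ⊗[k] X.A1) (B' ⊗[k] X.A1) L.M1' :=
    ⟨fun a b x => Subtype.ext
      (mul_smul (φm (k := k) B B' X.A1 a) b (x : L.M))⟩
  haveI := h.inv1
  obtain ⟨n, P, π, hinv, hπ⟩ := exists_lift_invertible (A := B ⊗[k] X.A1) (A₀ := B' ⊗[k] X.A1)
    (φm_surjective B B' hs X.A1) (isNilpotent_ker_φm B B' hs hn X.A1) L.M1'
  let π' : P →ₗ[B ⊗[k] X.A1] (resLD B L).M :=
    { toFun := fun p => ((π p : L.M1') : L.M)
      map_add' := fun x y => by rw [map_add]; rfl
      map_smul' := fun s p => by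
        rw [map_smul]
        exact (resLD_smul1 B L s _).symm }
  refine ⟨P, inferInstance, inferInstance, π', hinv, ?_, ?_⟩
  · ext m
    constructor
    · rintro ⟨p, rfl⟩
      exact (π p).2
    · intro hm
      obtain ⟨p, hp⟩ := hπ.surj ⟨m, hm⟩
      exact ⟨p, congrArg Subtype.val hp⟩
  · have hk : RingHom.ker (φm (k := k) B B' X.A1) =
      RingHom.ker (algebraMap (B ⊗[k] X.A1) (B' ⊗[k] X.A1)) := rfl
    rw [hk, ← hπ.ker]
    ext p
    rw [LinearMap.mem_ker, LinearMap.mem_ker]
    exact ⟨fun h => Subtype.ext h, fun h => congrArg Subtype.val h⟩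

end Fermat.Agent.JKL

end
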